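import Fermat.Agent.Periods.Congruence.Injective
import Fermat.Agent.RT.GammaH.Ops

/-!
# Periods and coset operators
-/

set_option autoImplicit false

noncomputable section

namespace Fermat.Agent.Periods.Congruence

open UpperHalfPlane
open Matrix.SpecialLinearGroup
open Fermat.Agent.RT.GammaH
open scoped MatrixGroups ModularForm

variable {M' : ℕ} [NeZero M'] {Γ' Γ : Subgroup SL(2, ℤ)} [Γ'.FiniteIndex]

/-- If `g = ∑ f|[2] repᵢ` then the periods of `g` are the operator applied to those of `f`. -/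
theorem per_opOf {ι : Type*} [Fintype ι] {rep : ι → GLR} (h : Admissible Γ' Γ rep)
    (hdet : ∀ i, 0 < (rep i).det.val) (hΓ' : CongruenceSubgroup.Gamma M' ≤ Γ')
    (f : CuspForm Γ' 2) (g : CuspForm Γ 2) (hg : ⇑g = ∑ i, ⇑f ∣[(2 : ℤ)] rep i) :
    per g = opOf h ℂ (per f) := by
  obtain ⟨F, hF, -⟩ := exists_primitive hΓ' f
  have hG : IsPrimitive ⇑g (fun τ => ∑ i, F (rep i • τ)) := by
    intro τ
    rw [hg, Finset.sum_apply]
    exact HasDerivAt.fun_sum (u := Finset.univ) fun i (_ : i ∈ Finset.univ) =>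
      hF.comp_smul (hdet i) τ
  refine AddMonoidHom.ext fun x => ?_
  obtain ⟨γ, rfl⟩ := Additive.ofMul.surjective x
  obtain ⟨σ, hσ⟩ := h γ
  rw [per_eq hG γ UpperHalfPlane.I, opOf_apply_of_isPerm h _ _ hσ, ← Finset.sum_sub_distrib]
  have h1 : ∀ i, onImg (per f) (rep i * mapGL ℝ (γ : SL(2, ℤ)) * (rep (σ i))⁻¹) =
      F (rep i • ((γ : SL(2, ℤ)) • UpperHalfPlane.I)) -
        F (rep (σ i) • UpperHalfPlane.I) := by
    intro i
    obtain ⟨c, hc⟩ := exists_of_mem_img (hσ.2 i)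
    rw [← hc, onImg_mapGL, per_eq hF c (rep (σ i) • UpperHalfPlane.I)]
    congr 2
    show mapGL ℝ (c : SL(2, ℤ)) • (rep (σ i) • UpperHalfPlane.I)
      = rep i • (mapGL ℝ (γ : SL(2, ℤ)) • UpperHalfPlane.I)
    rw [hc, ← mul_smul, ← mul_smul, inv_mul_cancel_right]
  rw [Finset.sum_congr rfl fun i _ => h1 i, Finset.sum_sub_distrib, Finset.sum_sub_distrib]
  congr 1
  exact (hσ.1.sum_comp fun i => F (rep i • UpperHalfPlane.I)).symm

end Fermat.Agent.Periods.Congruence
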