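import Fermat.Agent.Periods.Injective

/-!
# Periods of weight two cusp forms on a congruence group

`Γ` is a finite index subgroup of `SL(2, ℤ)` containing `Γ(M)`.
-/

set_option autoImplicit false

noncomputable section

namespace Fermat.Agent.Periods.Congruence

open UpperHalfPlane CongruenceSubgroup Filter Metric Function
open Matrix.SpecialLinearGroup ModularCurve.Period
open scoped MatrixGroups ModularForm

variable {M : ℕ} [NeZero M] {Γ : Subgroup SL(2, ℤ)} [Γ.FiniteIndex]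

omit [NeZero M] [Γ.FiniteIndex] in
theorem conj_T_pow_mem (hΓ : CongruenceSubgroup.Gamma M ≤ Γ) (δ : SL(2, ℤ)) :
    δ * ModularGroup.T ^ (M : ℤ) * δ⁻¹ ∈ Γ := by
  have hT : ModularGroup.T ^ (M : ℤ) ∈ CongruenceSubgroup.Gamma M := by
    simpa using ModularGroup_T_pow_mem_Gamma (M : ℤ) M dvd_rfl
  exact hΓ ((Gamma_normal M).conj_mem _ hT δ)

/-- A primitive of `f` with expansions at all cusps in `qParam M`. -/
theorem exists_primitive (hΓ : CongruenceSubgroup.Gamma M ≤ Γ) (f : CuspForm Γ 2) :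
    ∃ F : ℍ → ℂ, IsPrimitive ⇑f F ∧ HasCuspExpansion M F := by
  have key : ∀ δ : SL(2, ℤ), ∃ Φ : ℂ → ℂ, DifferentiableOn ℂ Φ (ball 0 1) ∧
      IsPrimitive (⇑f ∣[(2 : ℤ)] δ) (fun τ => Φ (Periodic.qParam M τ)) := fun δ =>
    exists_qPrimitive natCast_pos (slash_periodic (conj_T_pow_mem hΓ) f δ)
      (by rw [ModularForm.SL_slash]; exact (CuspFormClass.holo f).slash 2 _)
      (CuspFormClass.zero_at_infty_slash f δ)
  choose Φ hΦd hΦ using key
  set F : ℍ → ℂ := fun τ => Φ 1 (Periodic.qParam M τ) with hFdef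
  have hF : IsPrimitive ⇑f F := by
    have := hΦ 1
    rwa [SlashAction.slash_one] at this
  refine ⟨F, hF, fun δ => ?_⟩
  have h1 := hF.comp_SL δ
  refine ⟨fun q => Φ δ q + (F (δ • UpperHalfPlane.I) - Φ δ (Periodic.qParam M UpperHalfPlane.I)),
    (hΦd δ).add_const _, fun w => ?_⟩
  have h2 := h1.sub_eq (hΦ δ) w UpperHalfPlane.I
  linear_combination h2

omit [NeZero M] [Γ.FiniteIndex] in
theorem isEquivariantPrimitive {f : CuspForm Γ 2} {F : ℍ → ℂ} (hF : IsPrimitive ⇑f F) :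
    IsEquivariantPrimitive Γ F := by
  intro γ
  refine ⟨F ((γ : SL(2, ℤ)) • UpperHalfPlane.I) - F UpperHalfPlane.I, fun z => ?_⟩
  have h1 := hF.comp_SL (γ : SL(2, ℤ))
  have h2 : ⇑f ∣[(2 : ℤ)] (γ : SL(2, ℤ)) = ⇑f :=
    SlashInvariantFormClass.slash_action_eq f _ (Subgroup.mem_map_of_mem (mapGL ℝ) γ.2)
  rw [h2] at h1
  exact h1.sub_eq hF z UpperHalfPlane.I

open scoped Classical in
/-- The periods of a weight two cusp form. -/
def per (f : CuspForm Γ 2) : Additive Γ →+ ℂ :=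
  if h : ∃ F : ℍ → ℂ, IsPrimitive ⇑f F then
    (isEquivariantPrimitive h.choose_spec).periodHom
  else 0

omit [NeZero M] [Γ.FiniteIndex] in
/-- The periods may be computed with any primitive and any base point. -/
theorem per_eq {f : CuspForm Γ 2} {F : ℍ → ℂ} (hF : IsPrimitive ⇑f F) (γ : Γ) (z : ℍ) :
    per f (Additive.ofMul γ) = F ((γ : SL(2, ℤ)) • z) - F z := by
  have h : ∃ F : ℍ → ℂ, IsPrimitive ⇑f F := ⟨F, hF⟩
  rw [per, dif_pos h, IsEquivariantPrimitive.periodHom_apply,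
    ← (isEquivariantPrimitive h.choose_spec).sub_eq_period γ z]
  have := IsPrimitive.sub_eq h.choose_spec hF ((γ : SL(2, ℤ)) • z) z
  linear_combination this

/-- The period map, linearly. -/
def perLin (hΓ : CongruenceSubgroup.Gamma M ≤ Γ) :
    CuspForm Γ 2 →ₗ[ℂ] (Additive Γ →+ ℂ) where
  toFun f := per f
  map_add' f g := by
    refine AddMonoidHom.ext fun γ => ?_
    obtain ⟨F, hF, -⟩ := exists_primitive hΓ f
    obtain ⟨G, hG, -⟩ := exists_primitive hΓ g
    have hFG : IsPrimitive ⇑(f + g) (F + G) := hF.add hG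
    rw [AddMonoidHom.add_apply, ← ofMul_toMul γ, per_eq hF _ I, per_eq hG _ I, per_eq hFG _ I]
    simp only [Pi.add_apply]; ring
  map_smul' c f := by
    refine AddMonoidHom.ext fun γ => ?_
    obtain ⟨F, hF, -⟩ := exists_primitive hΓ f
    have hcF : IsPrimitive ⇑(c • f) (c • F) := hF.const_smul c
    rw [RingHom.id_apply, AddMonoidHom.smul_apply, ← ofMul_toMul γ, per_eq hF _ I, per_eq hcF _ I]
    simp only [Pi.smul_apply, smul_eq_mul]; ring

/-- The zero form has zero periods. -/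
theorem per_zero (hΓ : CongruenceSubgroup.Gamma M ≤ Γ) : per (0 : CuspForm Γ 2) = 0 :=
  map_zero (perLin hΓ)

end Fermat.Agent.Periods.Congruence
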